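/-
S18 / Program J, package (B24) part 2b (helper83): the Fricke involution of the modular function
field `FF N = ↥(modularFunctionFieldBar N)` over `ℚ̄`:

  `fricke N : FF N ≃ₐ[ℚ̄] FF N`,   `fricke N (jF N d) = jF N (N / d)`,

in particular `fricke N (jgen N) = jF N (topDiv N)` (`j(q) ↦ j(q^N)`).
Construction: `Θ(P)(-1/(Nτ)) = Θ(rename (d ↦ N/d) P)(τ)` (modular invariance of `J`), the landed
`Theta_eq_zero_iff` and `exists_unique_extension` of the S24 closure.
-/
import Fermat.Agent.S24.Ker
import Fermat.Agent.S24.Bridge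
import Fermat.Agent.S24.JFacts
import Fermat.Agent.S24.Transl
import Fermat.Agent.S24.InfCenter

set_option autoImplicit false

open UpperHalfPlane ModularCurve
open scoped MatrixGroups

noncomputable section

namespace Fermat.Agent.S18.H83

open Fermat.Agent.S24

variable (N : ℕ) [NeZero N]

/-- The Fricke map `τ ↦ -1/(Nτ)` of the upper half plane. -/
def frickePt (τ : ℍ) : ℍ := ModularGroup.S • levelMul N τ

theorem coe_frickePt (τ : ℍ) : (frickePt N τ : ℂ) = (-((N : ℂ) * τ))⁻¹ := by
  rw [frickePt, UpperHalfPlane.modular_S_smul]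
  rfl

/-- The complementary divisor `d ↦ N / d`. -/
def compl (d : N.divisors) : N.divisors :=
  ⟨N / (d : ℕ), by
    rw [Nat.mem_divisors]
    exact ⟨Nat.div_dvd_of_dvd (Nat.dvd_of_mem_divisors d.2), NeZero.ne N⟩⟩

@[simp] theorem coe_compl (d : N.divisors) : (compl N d : ℕ) = N / (d : ℕ) := rfl

theorem compl_compl (d : N.divisors) : compl N (compl N d) = d := by
  apply Subtype.ext
  simp only [coe_compl]
  exact Nat.div_div_self (Nat.dvd_of_mem_divisors d.2) (NeZero.ne N)

theorem compl_oneDiv : compl N (oneDiv N) = topDiv N := by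
  apply Subtype.ext
  simp [oneDiv, topDiv]

theorem compl_topDiv : compl N (topDiv N) = oneDiv N := by
  rw [← compl_oneDiv, compl_compl]

theorem mul_compl (d : N.divisors) : (d : ℕ) * (N / (d : ℕ)) = N :=
  Nat.mul_div_cancel' (Nat.dvd_of_mem_divisors d.2)

/-- `J(d · (-1/(Nτ))) = J((N/d) τ)`. -/
theorem Jd_frickePt (d : N.divisors) (τ : ℍ) :
    Jd (d : ℕ) (frickePt N τ) = Jd ((compl N d : N.divisors) : ℕ) τ := by
  have h : levelMul (d : ℕ) (frickePt N τ)
      = ModularGroup.S • levelMul ((compl N d : N.divisors) : ℕ) τ := by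
    apply UpperHalfPlane.ext
    rw [coe_levelMul, coe_frickePt, UpperHalfPlane.modular_S_smul]
    change (d : ℂ) * (-((N : ℂ) * τ))⁻¹ = (-(((N / (d : ℕ) : ℕ) : ℂ) * (τ : ℂ)))⁻¹
    have hd : ((d : ℕ) : ℂ) ≠ 0 := by
      exact_mod_cast (Nat.pos_of_mem_divisors d.2).ne'
    have hN : (N : ℂ) = ((d : ℕ) : ℂ) * ((N / (d : ℕ) : ℕ) : ℂ) := by
      exact_mod_cast (mul_compl N d).symm
    have hq : ((N / (d : ℕ) : ℕ) : ℂ) ≠ 0 := by
      have : (N / (d : ℕ)) ≠ 0 := (Nat.pos_of_mem_divisors (compl N d).2).ne'
      exact_mod_cast this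
    have hτ : (τ : ℂ) ≠ 0 := UpperHalfPlane.ne_zero τ
    rw [hN]
    field_simp
  unfold Jd
  rw [h, Jfun_smul]

/-- Precomposition with the Fricke map corresponds to renaming `j_d ↦ j_{N/d}`. -/
theorem Theta_rename (P : MvPolynomial (N.divisors) Kbar) (τ : ℍ) :
    Theta N (MvPolynomial.rename (compl N) P) τ = Theta N P (frickePt N τ) := by
  induction P using MvPolynomial.induction_on with
  | C a =>
    rw [MvPolynomial.rename_C, Fermat.Agent.S24.Theta_C]
  | add p q hp hq =>
    simp only [map_add, Pi.add_apply, hp, hq]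
  | mul_X p d hp =>
    simp only [map_mul, Pi.mul_apply, hp, MvPolynomial.rename_X,
      Fermat.Agent.S24.Theta_X, Jd_frickePt]

theorem frickePt_frickePt (τ : ℍ) : frickePt N (frickePt N τ) = τ := by
  apply UpperHalfPlane.ext
  rw [coe_frickePt, coe_frickePt]
  have hN : (N : ℂ) ≠ 0 := by exact_mod_cast NeZero.ne N
  have hτ : (τ : ℂ) ≠ 0 := UpperHalfPlane.ne_zero τ
  field_simp

theorem Theta_rename_eq_zero_iff (P : MvPolynomial (N.divisors) Kbar) :
    Theta N (MvPolynomial.rename (compl N) P) = 0 ↔ Theta N P = 0 := by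
  constructor
  · intro h
    funext τ
    have := congrFun h (frickePt N τ)
    rw [Theta_rename, frickePt_frickePt] at this
    exact this
  · intro h
    funext τ
    rw [Theta_rename, h]
    rfl

theorem evF_rename_eq_zero_iff (P : MvPolynomial (N.divisors) Kbar) :
    evF N (MvPolynomial.rename (compl N) P) = 0 ↔ evF N P = 0 := by
  rw [← Theta_eq_zero_iff, ← Theta_eq_zero_iff, Theta_rename_eq_zero_iff]

/-- The polynomial-level Fricke substitution. -/
def frickePoly : MvPolynomial (N.divisors) Kbar →+* FF N :=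
  ((evF N : MvPolynomial (N.divisors) Kbar →ₐ[Kbar] FF N) : MvPolynomial (N.divisors) Kbar →+* FF N).comp
    ((MvPolynomial.rename (compl N) :
      MvPolynomial (N.divisors) Kbar →ₐ[Kbar] MvPolynomial (N.divisors) Kbar) :
      MvPolynomial (N.divisors) Kbar →+* MvPolynomial (N.divisors) Kbar)

theorem frickePoly_apply (P : MvPolynomial (N.divisors) Kbar) :
    frickePoly N P = evF N (MvPolynomial.rename (compl N) P) := rfl

theorem exists_frickeRingHom :
    ∃ w : FF N →+* FF N, ∀ P, w (evF N P) = evF N (MvPolynomial.rename (compl N) P) :=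
  (exists_unique_extension (evF N) (evF_frac N) (frickePoly N)
    (fun P => evF_rename_eq_zero_iff N P)).exists

/-- The Fricke involution as a ring homomorphism. -/
def frickeRingHom : FF N →+* FF N := (exists_frickeRingHom N).choose

theorem frickeRingHom_evF (P : MvPolynomial (N.divisors) Kbar) :
    frickeRingHom N (evF N P) = evF N (MvPolynomial.rename (compl N) P) :=
  (exists_frickeRingHom N).choose_spec P

theorem frickeRingHom_frickeRingHom (f : FF N) : frickeRingHom N (frickeRingHom N f) = f := by
  have h : (frickeRingHom N).comp (frickeRingHom N) = RingHom.id (FF N) := by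
    apply H59inf.ringHom_ext_evF
    intro P
    rw [RingHom.comp_apply, frickeRingHom_evF, frickeRingHom_evF, MvPolynomial.rename_rename,
      RingHom.id_apply]
    have : (compl N) ∘ (compl N) = id := funext fun d => compl_compl N d
    rw [this, MvPolynomial.rename_id_apply]
  exact congrArg (fun g : FF N →+* FF N => g f) h

theorem frickeRingHom_algebraMap (a : Kbar) :
    frickeRingHom N (algebraMap Kbar (FF N) a) = algebraMap Kbar (FF N) a := by
  have h : algebraMap Kbar (FF N) a = evF N (MvPolynomial.C a) := by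
    rw [← MvPolynomial.algebraMap_eq, AlgHom.commutes]
  rw [h, frickeRingHom_evF, MvPolynomial.rename_C]

/-- The Fricke involution as a `ℚ̄`-algebra homomorphism. -/
def frickeHom : FF N →ₐ[Kbar] FF N :=
  { frickeRingHom N with commutes' := frickeRingHom_algebraMap N }

theorem frickeHom_apply (f : FF N) : frickeHom N f = frickeRingHom N f := rfl

/-- **The Fricke involution** of the modular function field. -/
def fricke : FF N ≃ₐ[Kbar] FF N :=
  AlgEquiv.ofAlgHom (frickeHom N) (frickeHom N)
    (AlgHom.ext fun f => frickeRingHom_frickeRingHom N f)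
    (AlgHom.ext fun f => frickeRingHom_frickeRingHom N f)

theorem fricke_apply (f : FF N) : fricke N f = frickeRingHom N f := rfl

theorem fricke_fricke (f : FF N) : fricke N (fricke N f) = f :=
  frickeRingHom_frickeRingHom N f

theorem fricke_symm_apply (f : FF N) : (fricke N).symm f = fricke N f := rfl

theorem fricke_evF (P : MvPolynomial (N.divisors) Kbar) :
    fricke N (evF N P) = evF N (MvPolynomial.rename (compl N) P) :=
  frickeRingHom_evF N P

theorem evF_X (d : N.divisors) : evF N (MvPolynomial.X d) = jF N d := by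
  simp [evF]

/-- `w(j_d) = j_{N/d}`. -/
theorem fricke_jF (d : N.divisors) : fricke N (jF N d) = jF N (compl N d) := by
  rw [← evF_X, fricke_evF, MvPolynomial.rename_X, evF_X]

/-- `w(j(q)) = j(q^N)`. -/
theorem fricke_jgen : fricke N (jgen N) = jF N (topDiv N) := by
  rw [jgen, fricke_jF, compl_oneDiv]

/-- `w(j(q^N)) = j(q)`. -/
theorem fricke_jtop : fricke N (jF N (topDiv N)) = jgen N := by
  rw [fricke_jF, compl_topDiv, jgen]

end Fermat.Agent.S18.H83
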