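/-
S18 / Program J, package (B24) part 1 (helper83): ramification of `F_N / ℚ̄(j)` in the Prelude
`Place` language, directly from the landed S24 closure (`exists_modularGlobalData`).

For every place `v` of `FF N = ↥(modularFunctionFieldBar N)` and every `c : ℚ̄` with
`0 < v.ord (j - c)`:  `v.ord (j - c) = 1` unless `c ∈ {0, 1728}`, `v.ord j ∣ 3`,
`v.ord (j - 1728) ∣ 2`.   Here `j = jgen N = j(q)`.
-/
import Fermat.Agent.S24.LocalSum
import Fermat.Agent.S24.Newton
import Fermat.Agent.S24.Fiber
import Fermat.Agent.S24.ModGlobal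

set_option autoImplicit false

open AlgebraicCurve ModularCurve
open scoped MatrixGroups

noncomputable section

namespace Fermat.Agent.S18.H83

open Fermat.Agent.S24

variable (N : ℕ) [NeZero N]

/-- The order of `v` at `j - c` is the minimal period of the local monodromy at some coset. -/
theorem exists_ord_eq_minimalPeriod (c : Kbar) (v : Place Kbar (FF N))
    (hv : 0 < v.ord (jgen N - algebraMap Kbar (FF N) c)) :
    ∃ x : XX N, v.ord (jgen N - algebraMap Kbar (FF N) c)
      = (Function.minimalPeriod (centerPerm N c) x : ℤ) := by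
  classical
  have _ : Fintype (XX N) := Fintype.ofFinite _
  obtain ⟨G, hfin, -⟩ := exists_modularGlobalData N
  obtain ⟨x, hx⟩ := (G.fin c).exists_rel_of_place G.frac v hv
  refine ⟨x, ?_⟩
  rw [(G.fin c).ord_π_eq_minimalPeriod G.frac v hv hx, hfin c]

/-- Unramified outside `{0, 1728}`. -/
theorem ord_jgen_sub_eq_one {c : Kbar} (h0 : c ≠ 0) (h1 : c ≠ 1728) (v : Place Kbar (FF N))
    (hv : 0 < v.ord (jgen N - algebraMap Kbar (FF N) c)) :
    v.ord (jgen N - algebraMap Kbar (FF N) c) = 1 := by
  obtain ⟨x, hx⟩ := exists_ord_eq_minimalPeriod N c v hv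
  rw [hx, centerPerm, if_neg h0, if_neg h1]
  have : Function.minimalPeriod (⇑(1 : Equiv.Perm (XX N))) x = 1 :=
    Function.minimalPeriod_eq_one_iff_isFixedPt.mpr (by simp [Function.IsFixedPt])
  rw [this]
  rfl

theorem neg_one_smul_XX (x : XX N) : (-1 : SL(2, ℤ)) • x = x := by
  induction x using QuotientGroup.induction_on with
  | H g =>
    change ((-1 * g : SL(2, ℤ)) : XX N) = (g : XX N)
    rw [QuotientGroup.eq]
    have : (-1 * g)⁻¹ * g = (-1 : SL(2, ℤ)) := by
      have h : (-1 : SL(2, ℤ)) * g = g * (-1) := by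
        ext i j
        simp
      rw [h, mul_inv_rev, mul_assoc, inv_mul_cancel]
      decide
    rw [this]
    rw [CongruenceSubgroup.Gamma0_mem]
    simp

/-- Ramification index divides `3` over `j = 0`. -/
theorem ord_jgen_dvd_three (v : Place Kbar (FF N)) (hv : 0 < v.ord (jgen N)) :
    v.ord (jgen N) ∣ 3 := by
  have hv' : 0 < v.ord (jgen N - algebraMap Kbar (FF N) 0) := by simpa using hv
  obtain ⟨x, hx⟩ := exists_ord_eq_minimalPeriod N 0 v hv'
  have hx' : v.ord (jgen N) = (Function.minimalPeriod (centerPerm N 0) x : ℤ) := by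
    simpa using hx
  rw [hx']
  have hper : Function.IsPeriodicPt (centerPerm N 0) 3 x := by
    rw [centerPerm, if_pos rfl]
    change (⇑(MulAction.toPerm (ModularGroup.S * ModularGroup.T) : Equiv.Perm (XX N)))^[3] x = x
    simp only [Function.iterate_succ, Function.iterate_zero, Function.comp_apply, id_eq,
      MulAction.toPerm_apply]
    rw [smul_smul, smul_smul]
    have : ModularGroup.S * ModularGroup.T * (ModularGroup.S * ModularGroup.T) *
        (ModularGroup.S * ModularGroup.T) = (-1 : SL(2, ℤ)) := by decide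
    rw [this]
    exact neg_one_smul_XX N x
  exact_mod_cast hper.minimalPeriod_dvd

/-- Ramification index divides `2` over `j = 1728`. -/
theorem ord_jgen_sub_dvd_two (v : Place Kbar (FF N))
    (hv : 0 < v.ord (jgen N - algebraMap Kbar (FF N) 1728)) :
    v.ord (jgen N - algebraMap Kbar (FF N) 1728) ∣ 2 := by
  obtain ⟨x, hx⟩ := exists_ord_eq_minimalPeriod N 1728 v hv
  rw [hx]
  have h1728 : (1728 : Kbar) ≠ 0 := by norm_num
  have hper : Function.IsPeriodicPt (centerPerm N 1728) 2 x := by
    rw [centerPerm, if_neg h1728, if_pos rfl]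
    change (⇑(MulAction.toPerm ModularGroup.S : Equiv.Perm (XX N)))^[2] x = x
    simp only [Function.iterate_succ, Function.iterate_zero, Function.comp_apply, id_eq,
      MulAction.toPerm_apply]
    rw [smul_smul]
    have : ModularGroup.S * ModularGroup.S = (-1 : SL(2, ℤ)) := by decide
    rw [this]
    exact neg_one_smul_XX N x
  exact_mod_cast hper.minimalPeriod_dvd

end Fermat.Agent.S18.H83
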