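/-
S18 / Program J, package (B24) part 2a (helper83): transport of Prelude `Place`s along a field
automorphism, with the order formula `(comap w v).ord f = v.ord (w f)`.
-/
import Fermat.Agent.S24.Ord

set_option autoImplicit false

open AlgebraicCurve

noncomputable section

namespace Fermat.Agent.S18.H83

open Fermat.Agent.S24

variable {K F : Type*} [Field K] [Field F] [Algebra K F]

/-- The place `{f | w f ∈ v}` for a `K`-automorphism `w` of `F`. -/
def placeComap (w : F ≃ₐ[K] F) (v : Place K F) : Place K F where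
  toValuationSubring := v.toValuationSubring.comap (w : F →+* F)
  algebraMap_mem' a := by
    rw [ValuationSubring.mem_comap]
    have : (w : F →+* F) (algebraMap K F a) = algebraMap K F a := w.commutes a
    rw [this]
    exact v.algebraMap_mem' a
  ne_top' := by
    intro h
    apply v.ne_top'
    refine SetLike.ext fun x => ⟨fun _ => ValuationSubring.mem_top x, fun _ => ?_⟩
    have hx : w.symm x ∈ v.toValuationSubring.comap (w : F →+* F) := by
      rw [h]; exact ValuationSubring.mem_top _
    rw [ValuationSubring.mem_comap] at hx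
    have : (w : F →+* F) (w.symm x) = x := w.apply_symm_apply x
    rwa [this] at hx
  isPrincipalIdealRing' := by
    let g : v.toValuationSubring →+* (v.toValuationSubring.comap (w : F →+* F)) :=
      { toFun := fun x => ⟨w.symm x, by
          rw [ValuationSubring.mem_comap]
          have : (w : F →+* F) (w.symm (x : F)) = x := w.apply_symm_apply x
          rw [this]; exact x.2⟩
        map_one' := by ext; simp
        map_mul' := fun x y => by ext; simp
        map_zero' := by ext; simp
        map_add' := fun x y => by ext; simp }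
    have hg : Function.Surjective g := by
      rintro ⟨y, hy⟩
      rw [ValuationSubring.mem_comap] at hy
      refine ⟨⟨w y, hy⟩, ?_⟩
      ext
      exact w.symm_apply_apply y
    exact IsPrincipalIdealRing.of_surjective g hg

theorem mem_placeComap (w : F ≃ₐ[K] F) (v : Place K F) (f : F) :
    f ∈ (placeComap w v).toValuationSubring ↔ w f ∈ v.toValuationSubring := Iff.rfl

theorem placeComap_nonneg_iff (w : F ≃ₐ[K] F) (v : Place K F) {f : F} (hf : f ≠ 0) :
    0 ≤ (placeComap w v).ord f ↔ 0 ≤ v.ord (w f) := by
  have hwf : w f ≠ 0 := (map_ne_zero w).mpr hf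
  rw [← mem_iff_ord_nonneg _ hf, ← mem_iff_ord_nonneg _ hwf]
  exact mem_placeComap w v f

theorem placeComap_ord_eq_zero (w : F ≃ₐ[K] F) (v : Place K F) {f : F} (hf : f ≠ 0)
    (h : (placeComap w v).ord f = 0) : v.ord (w f) = 0 := by
  have h1 : 0 ≤ v.ord (w f) := (placeComap_nonneg_iff w v hf).mp (by rw [h])
  have h2 : 0 ≤ v.ord (w f⁻¹) :=
    (placeComap_nonneg_iff w v (inv_ne_zero hf)).mp (by rw [Place.ord_inv, h]; simp)
  rw [map_inv₀, Place.ord_inv] at h2
  omega

/-- The order at the transported place. -/
theorem placeComap_ord (w : F ≃ₐ[K] F) (v : Place K F) (f : F) :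
    (placeComap w v).ord f = v.ord (w f) := by
  by_cases hf : f = 0
  · subst hf; simp
  set v' := placeComap w v with hv'
  obtain ⟨t, ht⟩ := exists_ord_eq_one v'
  have ht0 : t ≠ 0 := by
    rintro rfl
    simp at ht
  -- the key proportionality
  have key : ∀ g : F, g ≠ 0 → v.ord (w g) = v'.ord g * v.ord (w t) := by
    intro g hg
    have hu : v'.ord (g * (t ^ (v'.ord g))⁻¹) = 0 := by
      rw [Place.ord_mul _ hg (inv_ne_zero (zpow_ne_zero _ ht0)), Place.ord_inv, Place.ord_zpow, ht]
      ring
    have hu0 : g * (t ^ (v'.ord g))⁻¹ ≠ 0 := mul_ne_zero hg (inv_ne_zero (zpow_ne_zero _ ht0))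
    have h0 := placeComap_ord_eq_zero w v hu0 hu
    have hwg : w g ≠ 0 := (map_ne_zero w).mpr hg
    have hwt : w t ≠ 0 := (map_ne_zero w).mpr ht0
    rw [map_mul, map_inv₀, map_zpow₀,
      Place.ord_mul _ hwg (inv_ne_zero (zpow_ne_zero _ hwt)), Place.ord_inv, Place.ord_zpow] at h0
    linarith
  -- `e = v.ord (w t) = 1`
  obtain ⟨s, hs⟩ := exists_ord_eq_one v
  have hs0 : s ≠ 0 := by
    rintro rfl
    simp at hs
  have hws : w.symm s ≠ 0 := (map_ne_zero w.symm).mpr hs0
  have h1 := key (w.symm s) hws
  rw [w.apply_symm_apply, hs] at h1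
  have hpos : 0 < v.ord (w t) := by
    by_contra hneg
    have hle : v.ord (w t) ≤ 0 := not_lt.mp hneg
    have h2 : 0 ≤ v.ord (w t⁻¹) := by
      rw [map_inv₀, Place.ord_inv]; omega
    have h3 := (placeComap_nonneg_iff w v (inv_ne_zero ht0)).mpr h2
    rw [← hv', Place.ord_inv, ht] at h3
    omega
  have he : v.ord (w t) = 1 := by
    have hdvd : v.ord (w t) ∣ 1 := ⟨v'.ord (w.symm s), by rw [h1]; ring⟩
    exact Int.eq_one_of_dvd_one hpos.le hdvd
  rw [key f hf, he, mul_one]

end Fermat.Agent.S18.H83
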