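/-
S18 / Program J, package (B24) part 3 (helper83): the `Setup.branch` / `Setup.branch_inv` data
of the skeleton (helper74, `Fermat.Agent.S18.H74.Setup`) for the base function `x = j_N = j(q^N)`
of `FF N = ↥(modularFunctionFieldBar N)`, from the landed S24 closure and the Fricke involution.
-/
import Fermat.Agent.S18.H83.JBase
import Fermat.Agent.S18.H83.PlaceMap
import Fermat.Agent.S18.H83.Fricke

set_option autoImplicit false

open AlgebraicCurve ModularCurve
open scoped MatrixGroups

noncomputable section

namespace Fermat.Agent.S18.H83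

open Fermat.Agent.S24

variable (N : ℕ) [NeZero N]

/-- The base function `j_N = j(q^N)` (the base used by the S28 closure). -/
def jtop : FF N := jF N (topDiv N)

theorem fricke_sub_const (c : Kbar) :
    fricke N (jgen N - algebraMap Kbar (FF N) c) = jtop N - algebraMap Kbar (FF N) c := by
  rw [map_sub, fricke_jgen, AlgEquiv.commutes]
  rfl

theorem ord_jtop_sub (c : Kbar) (v : Place Kbar (FF N)) :
    v.ord (jtop N - algebraMap Kbar (FF N) c)
      = (placeComap (fricke N) v).ord (jgen N - algebraMap Kbar (FF N) c) := by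
  rw [placeComap_ord, fricke_sub_const]

/-- `F_N / ℚ̄(j_N)` is unramified outside `{0, 1728}`. -/
theorem ord_jtop_sub_eq_one {c : Kbar} (h0 : c ≠ 0) (h1 : c ≠ 1728) (v : Place Kbar (FF N))
    (hv : 0 < v.ord (jtop N - algebraMap Kbar (FF N) c)) :
    v.ord (jtop N - algebraMap Kbar (FF N) c) = 1 := by
  rw [ord_jtop_sub] at hv ⊢
  exact ord_jgen_sub_eq_one N h0 h1 _ hv

/-- Ramification index divides `3` over `j_N = 0`. -/
theorem ord_jtop_dvd_three (v : Place Kbar (FF N)) (hv : 0 < v.ord (jtop N)) :
    v.ord (jtop N) ∣ 3 := by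
  have h := ord_jtop_sub N 0 v
  simp only [map_zero, sub_zero] at h
  rw [h] at hv ⊢
  exact ord_jgen_dvd_three N _ hv

/-- Ramification index divides `2` over `j_N = 1728`. -/
theorem ord_jtop_sub_dvd_two (v : Place Kbar (FF N))
    (hv : 0 < v.ord (jtop N - algebraMap Kbar (FF N) 1728)) :
    v.ord (jtop N - algebraMap Kbar (FF N) 1728) ∣ 2 := by
  rw [ord_jtop_sub] at hv ⊢
  exact ord_jgen_sub_dvd_two N _ hv

theorem jgen_ne_zero : jgen N ≠ 0 := by
  classical
  have _ : Fintype (XX N) := Fintype.ofFinite _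
  obtain ⟨G, -, -⟩ := exists_modularGlobalData N
  have h := G.inf.π_ne_zero
  exact fun h0 => h (by rw [h0, inv_zero])

theorem jtop_ne_zero : jtop N ≠ 0 := by
  have h : jtop N = fricke N (jgen N) := (fricke_jgen N).symm
  rw [h]
  exact (map_ne_zero (fricke N)).mpr (jgen_ne_zero N)

end Fermat.Agent.S18.H83
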