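/-
S18 / Program J, package (B24) part 4 (helper83): GENERIC branch lemmas, for any fields `F / K`
(`K` of characteristic `0`) and Prelude places.

* `unram_inv`        : branch set `{0, s}` of `x`  ⟹  branch set `{0, s⁻¹}` of `x⁻¹`.
* `unram_haupt_two`  : `J * x = (x + 16) ^ 3` and `J` unramified outside `{0, 1728}` with indices
                       dividing `3`, `2` there  ⟹  `x` unramified outside `{0, -64}`.
* `unram_haupt_three`: the same with `J * x = (x + 27) * (x + 3) ^ 3`, branch set `{0, -27}`.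
* `branch_shape_two` : packaging into the shape of the fields `branch` / `branch_inv` of the
                       structure `Fermat.Agent.S18.H74.Setup` (finite set `{0, s}`).
-/
import Fermat.Agent.S24.Ord

set_option autoImplicit false

open AlgebraicCurve

noncomputable section

namespace Fermat.Agent.S18.H83

open Fermat.Agent.S24

variable {K F : Type*} [Field K] [Field F] [Algebra K F]

theorem ne_zero_of_pos_ord (P : Place K F) {f : F} (h : 0 < P.ord f) : f ≠ 0 := by
  rintro rfl
  rw [P.ord_zero] at h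
  exact lt_irrefl _ h

/-- `0 < ord (x - c)` and `c ≠ c'` give `x - c' ≠ 0` and `ord (x - c') = 0`. -/
theorem ord_sub_const_eq_zero (P : Place K F) {x : F} {c c' : K} (hcc : c ≠ c')
    (h : 0 < P.ord (x - algebraMap K F c)) :
    x - algebraMap K F c' ≠ 0 ∧ P.ord (x - algebraMap K F c') = 0 := by
  have hd : algebraMap K F (c - c') ≠ 0 := by
    rw [Ne, map_eq_zero]
    exact sub_ne_zero.mpr hcc
  have h0 : P.ord (algebraMap K F (c - c')) = 0 := ord_algebraMap P (sub_ne_zero.mpr hcc)
  have key := ord_add_eq_of_lt P hd (g := x - algebraMap K F c) (Or.inr (by rw [h0]; exact h))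
  have e : algebraMap K F (c - c') + (x - algebraMap K F c) = x - algebraMap K F c' := by
    rw [map_sub]; ring
  rw [e] at key
  exact ⟨key.1, key.2.trans h0⟩

/-- `0 < ord (x - c)` with `c ≠ 0` gives `x ≠ 0` and `ord x = 0`. -/
theorem ord_eq_zero_of_sub_pos (P : Place K F) {x : F} {c : K} (hc : c ≠ 0)
    (h : 0 < P.ord (x - algebraMap K F c)) : x ≠ 0 ∧ P.ord x = 0 := by
  have := ord_sub_const_eq_zero P (c' := 0) hc h
  rwa [map_zero, sub_zero] at this

/-- A nonzero constant plus a multiple of a function of positive order has order `0`. -/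
theorem ord_const_add_mul (P : Place K F) {g : K} (hg : g ≠ 0) {t H : F} (ht : 0 < P.ord t)
    (hH : H ∈ P.toValuationSubring) :
    algebraMap K F g + t * H ≠ 0 ∧ P.ord (algebraMap K F g + t * H) = 0 := by
  have hg' : algebraMap K F g ≠ 0 := by
    rw [Ne, map_eq_zero]; exact hg
  have h0 := ord_algebraMap (F := F) P hg
  have key := ord_add_eq_of_lt P hg' (g := t * H) (by
    by_cases hH0 : H = 0
    · left; rw [hH0, mul_zero]
    · right
      have ht0 := ne_zero_of_pos_ord P ht
      rw [h0, P.ord_mul ht0 hH0]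
      have := (mem_iff_ord_nonneg P hH0).mp hH
      omega)
  exact ⟨key.1, key.2.trans h0⟩

theorem eq_one_of_mul_dvd {n e : ℤ} (hn : 0 < n) (he : 0 < e) (h : n * e ∣ n) : e = 1 := by
  obtain ⟨k, hk⟩ := h
  have h1 : e * k = 1 := by
    have h2 : n * (e * k) = n * 1 := by rw [mul_one, ← mul_assoc]; exact hk.symm
    exact mul_left_cancel₀ hn.ne' h2
  exact Int.eq_one_of_mul_eq_one_right he.le h1

/-- Branch set `{0, s}` for `x` gives branch set `{0, s⁻¹}` for `x⁻¹`. -/
theorem unram_inv {x : F} {s : K}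
    (h : ∀ (P : Place K F) (c : K), c ≠ 0 → c ≠ s →
      0 < P.ord (x - algebraMap K F c) → P.ord (x - algebraMap K F c) = 1)
    (P : Place K F) (c : K) (hc0 : c ≠ 0) (hcs : c ≠ s⁻¹)
    (hpos : 0 < P.ord (x⁻¹ - algebraMap K F c)) :
    P.ord (x⁻¹ - algebraMap K F c) = 1 := by
  obtain ⟨hxi0, hxiord⟩ := ord_eq_zero_of_sub_pos P hc0 hpos
  have hx0 : x ≠ 0 := fun h0 => hxi0 (by rw [h0, inv_zero])
  have ha0 : algebraMap K F c ≠ 0 := by
    rw [Ne, map_eq_zero]; exact hc0
  have hne := ne_zero_of_pos_ord P hpos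
  have hci0 : c⁻¹ ≠ 0 := inv_ne_zero hc0
  have hcis : c⁻¹ ≠ s := fun h' => hcs (by rw [← h', inv_inv])
  have key : x⁻¹ - algebraMap K F c
      = -algebraMap K F c * (x - algebraMap K F c⁻¹) * x⁻¹ := by
    rw [map_inv₀]
    field_simp
    ring
  have hxa : x - algebraMap K F c⁻¹ ≠ 0 := by
    intro h0
    rw [h0, mul_zero, zero_mul] at key
    exact hne key
  have hna : -algebraMap K F c ≠ 0 := neg_ne_zero.mpr ha0
  have hord : P.ord (x⁻¹ - algebraMap K F c) = P.ord (x - algebraMap K F c⁻¹) := by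
    rw [key, P.ord_mul (mul_ne_zero hna hxa) hxi0, P.ord_mul hna hxa, ord_neg,
      ord_algebraMap P hc0, hxiord]
    ring
  rw [hord] at hpos ⊢
  exact h P c⁻¹ hci0 hcis hpos

section CharZero

variable [CharZero K]

/-- **Level 2 Hauptmodul step.** If `J * x = (x + 16) ^ 3` and `J` is unramified outside
`{0, 1728}` with ramification indices dividing `3` over `0` and `2` over `1728`, then `x` is
unramified outside `{0, -64}`. -/
theorem unram_haupt_two {J x : F} (hJ : J * x = (x + 16) ^ 3)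
    (h1 : ∀ (P : Place K F) (c : K), c ≠ 0 → c ≠ 1728 →
      0 < P.ord (J - algebraMap K F c) → P.ord (J - algebraMap K F c) = 1)
    (h3 : ∀ P : Place K F, 0 < P.ord J → P.ord J ∣ 3)
    (h2 : ∀ P : Place K F, 0 < P.ord (J - algebraMap K F 1728) →
      P.ord (J - algebraMap K F 1728) ∣ 2)
    (P : Place K F) (c : K) (hc0 : c ≠ 0) (hc64 : c ≠ -64)
    (hpos : 0 < P.ord (x - algebraMap K F c)) : P.ord (x - algebraMap K F c) = 1 := by
  obtain ⟨hx0, hxord⟩ := ord_eq_zero_of_sub_pos P hc0 hpos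
  have hxmem : x ∈ P.toValuationSubring := (mem_iff_ord_nonneg P hx0).mpr hxord.ge
  have hxa := ne_zero_of_pos_ord P hpos
  obtain ⟨a, ha⟩ : ∃ a : F, a = algebraMap K F c := ⟨_, rfl⟩
  have ha0 : a ≠ 0 := by
    rw [ha, Ne, map_eq_zero]; exact hc0
  rw [← ha] at hpos hxa ⊢
  by_cases hc16 : c = -16
  · -- over `J = 0`
    have e : x + 16 = x - a := by
      rw [ha, hc16, map_neg, map_ofNat]; ring
    have hJx : J * x = (x - a) ^ 3 := by rw [hJ, e]
    have hJ0 : J ≠ 0 := by
      intro h; rw [h, zero_mul] at hJx; exact pow_ne_zero 3 hxa hJx.symm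
    have l := P.ord_mul hJ0 hx0
    rw [hJx, ord_pow, hxord, add_zero] at l
    have hd := h3 P (by rw [← l]; push_cast; omega)
    rw [← l] at hd
    exact eq_one_of_mul_dvd (n := 3) (by norm_num) hpos (by exact_mod_cast hd)
  by_cases hc8 : c = 8
  · -- over `J = 1728`
    have e8 : a = 8 := by rw [ha, hc8, map_ofNat]
    have e1728 : algebraMap K F 1728 = 1728 := map_ofNat _ _
    have key : (J - algebraMap K F 1728) * x = (x - a) ^ 2 * (x + 64) := by
      rw [e1728, e8]; linear_combination hJ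
    have h64 := ord_sub_const_eq_zero P (c := c) (c' := -64) hc64 (by rw [← ha]; exact hpos)
    have e64 : x - algebraMap K F (-64) = x + 64 := by
      rw [map_neg, map_ofNat]; ring
    rw [e64] at h64
    have hJ0 : J - algebraMap K F 1728 ≠ 0 := by
      intro h; rw [h, zero_mul] at key
      exact mul_ne_zero (pow_ne_zero 2 hxa) h64.1 key.symm
    have l := P.ord_mul hJ0 hx0
    rw [key, P.ord_mul (pow_ne_zero 2 hxa) h64.1, ord_pow, h64.2, hxord, add_zero, add_zero] at l
    have hd := h2 P (by rw [← l]; push_cast; omega)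
    rw [← l] at hd
    exact eq_one_of_mul_dvd (n := 2) (by norm_num) hpos (by exact_mod_cast hd)
  · -- generic fibre
    have hc16' : c + 16 ≠ 0 := fun h => hc16 (eq_neg_of_add_eq_zero_left h)
    have hR0 : (c + 16) ^ 3 / c ≠ 0 := div_ne_zero (pow_ne_zero 3 hc16') hc0
    have hR1 : (c + 16) ^ 3 / c ≠ 1728 := by
      rw [Ne, div_eq_iff hc0]
      intro h
      have h' : (c - 8) ^ 2 * (c + 64) = 0 := by linear_combination h
      rcases mul_eq_zero.mp h' with h'' | h''
      · exact hc8 (sub_eq_zero.mp ((pow_eq_zero_iff (two_ne_zero)).mp h''))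
      · exact hc64 (eq_neg_of_add_eq_zero_left h'')
    have hRa : algebraMap K F ((c + 16) ^ 3 / c) * a = (a + 16) ^ 3 := by
      rw [ha, ← map_mul, div_mul_cancel₀ _ hc0, map_pow, map_add, map_ofNat]
    have key : (J - algebraMap K F ((c + 16) ^ 3 / c)) * x * a
        = (x - a) * (a * x ^ 2 + (a ^ 2 + 48 * a) * x - 4096) := by
      linear_combination a * hJ - x * hRa
    have hg : (2 * (c - 8) * (c + 16) ^ 2 : K) ≠ 0 :=
      mul_ne_zero (mul_ne_zero two_ne_zero (sub_ne_zero.mpr hc8)) (pow_ne_zero 2 hc16')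
    have hGdec : a * x ^ 2 + (a ^ 2 + 48 * a) * x - 4096
        = algebraMap K F (2 * (c - 8) * (c + 16) ^ 2)
          + (x - a) * (a * x + algebraMap K F (2 * c ^ 2 + 48 * c)) := by
      simp only [map_mul, map_sub, map_add, map_pow, map_ofNat, ← ha]
      ring
    have hHmem : a * x + algebraMap K F (2 * c ^ 2 + 48 * c) ∈ P.toValuationSubring :=
      add_mem (mul_mem (by rw [ha]; exact P.algebraMap_mem' c) hxmem) (P.algebraMap_mem' _)
    have hGord := ord_const_add_mul P hg hpos hHmem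
    rw [← hGdec] at hGord
    have hJR0 : J - algebraMap K F ((c + 16) ^ 3 / c) ≠ 0 := by
      intro h; rw [h, zero_mul, zero_mul] at key
      exact mul_ne_zero hxa hGord.1 key.symm
    have hord : P.ord (J - algebraMap K F ((c + 16) ^ 3 / c)) = P.ord (x - a) := by
      have l := P.ord_mul (mul_ne_zero hJR0 hx0) ha0
      rw [P.ord_mul hJR0 hx0, key, P.ord_mul hxa hGord.1, hGord.2, hxord, ha,
        ord_algebraMap P hc0] at l
      rw [ha]; linarith
    rw [← hord] at hpos ⊢
    exact h1 P _ hR0 hR1 hpos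

/-- **Level 3 Hauptmodul step.** If `J * x = (x + 27) * (x + 3) ^ 3` and `J` is unramified
outside `{0, 1728}` with ramification indices dividing `3` over `0` and `2` over `1728`, then `x`
is unramified outside `{0, -27}`. -/
theorem unram_haupt_three {J x : F} (hJ : J * x = (x + 27) * (x + 3) ^ 3)
    (h1 : ∀ (P : Place K F) (c : K), c ≠ 0 → c ≠ 1728 →
      0 < P.ord (J - algebraMap K F c) → P.ord (J - algebraMap K F c) = 1)
    (h3 : ∀ P : Place K F, 0 < P.ord J → P.ord J ∣ 3)
    (h2 : ∀ P : Place K F, 0 < P.ord (J - algebraMap K F 1728) →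
      P.ord (J - algebraMap K F 1728) ∣ 2)
    (P : Place K F) (c : K) (hc0 : c ≠ 0) (hc27 : c ≠ -27)
    (hpos : 0 < P.ord (x - algebraMap K F c)) : P.ord (x - algebraMap K F c) = 1 := by
  obtain ⟨hx0, hxord⟩ := ord_eq_zero_of_sub_pos P hc0 hpos
  have hxmem : x ∈ P.toValuationSubring := (mem_iff_ord_nonneg P hx0).mpr hxord.ge
  have hxa := ne_zero_of_pos_ord P hpos
  have h27 := ord_sub_const_eq_zero P (c := c) (c' := -27) hc27 hpos
  have e27 : x - algebraMap K F (-27) = x + 27 := by
    rw [map_neg, map_ofNat]; ring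
  rw [e27] at h27
  obtain ⟨a, ha⟩ : ∃ a : F, a = algebraMap K F c := ⟨_, rfl⟩
  have ha0 : a ≠ 0 := by
    rw [ha, Ne, map_eq_zero]; exact hc0
  have hamem : a ∈ P.toValuationSubring := by rw [ha]; exact P.algebraMap_mem' c
  by_cases hc3 : c = -3
  · -- over `J = 0`
    rw [← ha] at hpos hxa ⊢
    have e : x + 3 = x - a := by
      rw [ha, hc3, map_neg, map_ofNat]; ring
    have hJx : J * x = (x + 27) * (x - a) ^ 3 := by rw [hJ, e]
    have hJ0 : J ≠ 0 := by
      intro h; rw [h, zero_mul] at hJx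
      exact mul_ne_zero h27.1 (pow_ne_zero 3 hxa) hJx.symm
    have l := P.ord_mul hJ0 hx0
    rw [hJx, P.ord_mul h27.1 (pow_ne_zero 3 hxa), ord_pow, h27.2, hxord, add_zero, zero_add] at l
    have hd := h3 P (by rw [← l]; push_cast; omega)
    rw [← l] at hd
    exact eq_one_of_mul_dvd (n := 3) (by norm_num) hpos (by exact_mod_cast hd)
  by_cases hq : c ^ 2 + 18 * c - 27 = 0
  · -- over `J = 1728`
    have hc9 : c ≠ -c - 18 := by
      intro h
      have h9 : c = -9 := by linear_combination h / 2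
      rw [h9] at hq
      norm_num at hq
    have h18 := ord_sub_const_eq_zero P (c := c) (c' := -c - 18) hc9 hpos
    have e18 : x - algebraMap K F (-c - 18) = x + a + 18 := by
      rw [map_sub, map_neg, map_ofNat, ← ha]; ring
    rw [e18] at h18
    rw [← ha] at hpos hxa ⊢
    have hqa : a ^ 2 + 18 * a - 27 = 0 := by
      have := congrArg (algebraMap K F) hq
      simpa only [map_mul, map_sub, map_add, map_pow, map_ofNat, map_zero, ← ha] using this
    have e1728 : algebraMap K F 1728 = 1728 := map_ofNat _ _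
    have key : (J - algebraMap K F 1728) * x = ((x - a) * (x + a + 18)) ^ 2 := by
      rw [e1728]
      linear_combination hJ + (2 * x ^ 2 + 36 * x - 54 - (a ^ 2 + 18 * a - 27)) * hqa
    have hprod : (x - a) * (x + a + 18) ≠ 0 := mul_ne_zero hxa h18.1
    have hJ0 : J - algebraMap K F 1728 ≠ 0 := by
      intro h; rw [h, zero_mul] at key
      exact pow_ne_zero 2 hprod key.symm
    have l := P.ord_mul hJ0 hx0
    rw [key, ord_pow, P.ord_mul hxa h18.1, h18.2, hxord, add_zero, add_zero] at l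
    have hd := h2 P (by rw [← l]; push_cast; omega)
    rw [← l] at hd
    exact eq_one_of_mul_dvd (n := 2) (by norm_num) hpos (by exact_mod_cast hd)
  · -- generic fibre
    rw [← ha] at hpos hxa ⊢
    have hc3' : c + 3 ≠ 0 := fun h => hc3 (eq_neg_of_add_eq_zero_left h)
    have hc27' : c + 27 ≠ 0 := fun h => hc27 (eq_neg_of_add_eq_zero_left h)
    have hR0 : (c + 27) * (c + 3) ^ 3 / c ≠ 0 :=
      div_ne_zero (mul_ne_zero hc27' (pow_ne_zero 3 hc3')) hc0
    have hR1 : (c + 27) * (c + 3) ^ 3 / c ≠ 1728 := by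
      rw [Ne, div_eq_iff hc0]
      intro h
      have h' : (c ^ 2 + 18 * c - 27) ^ 2 = 0 := by linear_combination h
      exact hq ((pow_eq_zero_iff (two_ne_zero)).mp h')
    have hRa : algebraMap K F ((c + 27) * (c + 3) ^ 3 / c) * a = (a + 27) * (a + 3) ^ 3 := by
      rw [ha, ← map_mul, div_mul_cancel₀ _ hc0, map_mul, map_pow, map_add, map_add, map_ofNat,
        map_ofNat]
    have key : (J - algebraMap K F ((c + 27) * (c + 3) ^ 3 / c)) * x * a
        = (x - a) * (a * x ^ 3 + (a ^ 2 + 36 * a) * x ^ 2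
            + (a ^ 3 + 36 * a ^ 2 + 270 * a) * x - 729) := by
      linear_combination a * hJ - x * hRa
    have hg : (3 * (c + 3) ^ 2 * (c ^ 2 + 18 * c - 27) : K) ≠ 0 :=
      mul_ne_zero (mul_ne_zero three_ne_zero (pow_ne_zero 2 hc3')) hq
    have hGdec : a * x ^ 3 + (a ^ 2 + 36 * a) * x ^ 2 + (a ^ 3 + 36 * a ^ 2 + 270 * a) * x - 729
        = algebraMap K F (3 * (c + 3) ^ 2 * (c ^ 2 + 18 * c - 27))
          + (x - a) * (a * x ^ 2 + algebraMap K F (2 * c ^ 2 + 36 * c) * x
              + algebraMap K F (3 * c ^ 3 + 72 * c ^ 2 + 270 * c)) := by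
      simp only [map_mul, map_sub, map_add, map_pow, map_ofNat, ← ha]
      ring
    have hHmem : a * x ^ 2 + algebraMap K F (2 * c ^ 2 + 36 * c) * x
        + algebraMap K F (3 * c ^ 3 + 72 * c ^ 2 + 270 * c) ∈ P.toValuationSubring :=
      add_mem (add_mem (mul_mem hamem (pow_mem hxmem 2))
        (mul_mem (P.algebraMap_mem' _) hxmem)) (P.algebraMap_mem' _)
    have hGord := ord_const_add_mul P hg hpos hHmem
    rw [← hGdec] at hGord
    have hJR0 : J - algebraMap K F ((c + 27) * (c + 3) ^ 3 / c) ≠ 0 := by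
      intro h; rw [h, zero_mul, zero_mul] at key
      exact mul_ne_zero hxa hGord.1 key.symm
    have hord : P.ord (J - algebraMap K F ((c + 27) * (c + 3) ^ 3 / c)) = P.ord (x - a) := by
      have l := P.ord_mul (mul_ne_zero hJR0 hx0) ha0
      rw [P.ord_mul hJR0 hx0, key, P.ord_mul hxa hGord.1, hGord.2, hxord, ha,
        ord_algebraMap P hc0] at l
      rw [ha]; linarith
    rw [← hord] at hpos ⊢
    exact h1 P _ hR0 hR1 hpos

end CharZero

/-- Packaging: a function unramified outside `{0, s}` with `s ∈ A`, `s⁻¹ ∈ A` has the `branch`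
shape of `Fermat.Agent.S18.H74.Setup`. -/
theorem branch_shape_two (A : ValuationSubring K) (x : F) (s : K) (hs : s ∈ A) (hsi : s⁻¹ ∈ A)
    (h : ∀ (P : Place K F) (c : K), c ≠ 0 → c ≠ s →
      0 < P.ord (x - algebraMap K F c) → P.ord (x - algebraMap K F c) = 1) :
    ∃ S : Finset K, (∀ c ∈ S, c ∈ A) ∧
      (∀ c ∈ S, ∀ c' ∈ S, c ≠ c' → (c - c')⁻¹ ∈ A) ∧
      ∀ (P : Place K F) (c : K), c ∉ S →
        0 < P.ord (x - algebraMap K F c) → P.ord (x - algebraMap K F c) = 1 := by
  classical
  refine ⟨{0, s}, ?_, ?_, ?_⟩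
  · intro c hc
    rcases Finset.mem_insert.mp hc with rfl | hc
    · exact A.zero_mem
    · rw [Finset.mem_singleton.mp hc]; exact hs
  · intro c hc c' hc' hne
    simp only [Finset.mem_insert, Finset.mem_singleton] at hc hc'
    rcases hc with rfl | rfl <;> rcases hc' with rfl | rfl
    · exact absurd rfl hne
    · rw [zero_sub, inv_neg]; exact A.neg_mem _ hsi
    · rw [sub_zero]; exact hsi
    · exact absurd rfl hne
  · intro P c hc
    simp only [Finset.mem_insert, Finset.mem_singleton, not_or] at hc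
    exact h P c hc.1 hc.2

/-- Packaging for the chart at infinity: the `branch_inv` shape, with the set `{0, s⁻¹}`. -/
theorem branch_inv_shape_two (A : ValuationSubring K) (x : F) (s : K) (hs : s ∈ A)
    (hsi : s⁻¹ ∈ A)
    (h : ∀ (P : Place K F) (c : K), c ≠ 0 → c ≠ s →
      0 < P.ord (x - algebraMap K F c) → P.ord (x - algebraMap K F c) = 1) :
    ∃ S : Finset K, (∀ c ∈ S, c ∈ A) ∧
      (∀ c ∈ S, ∀ c' ∈ S, c ≠ c' → (c - c')⁻¹ ∈ A) ∧
      ∀ (P : Place K F) (c : K), c ∉ S →
        0 < P.ord (x⁻¹ - algebraMap K F c) → P.ord (x⁻¹ - algebraMap K F c) = 1 :=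
  branch_shape_two A x⁻¹ s⁻¹ hsi (by rw [inv_inv]; exact hs) (unram_inv h)

end Fermat.Agent.S18.H83
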