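/-
S18 / Program J, leaf B3 (helper83): the fields `branch` and `branch_inv` of the structure
`Fermat.Agent.S18.H74.Setup` for the modular function field `FF N = ↥(modularFunctionFieldBar N)`
over `Kbar = AlgebraicClosure ℚ`, VERBATIM in the shape of the structure, for the three bases

* `x = jtop N = j(q^N)`                      (`ℓ ≥ 5`;  needs `1728⁻¹ ∈ A`),
* `x` with `jtop N * x = (x + 16) ^ 3`       (`ℓ = 3`;  needs `64⁻¹ ∈ A`),
* `x` with `jtop N * x = (x + 27) * (x + 3) ^ 3`  (`ℓ = 2`;  needs `27⁻¹ ∈ A`).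

Inputs: the landed S24 closure (`exists_modularGlobalData`, via `JBase`), the Fricke involution
(`Fricke`, `Branch`) and the generic Hauptmodul lemmas (`Haupt`).
-/
import Fermat.Agent.S18.H83.Branch
import Fermat.Agent.S18.H83.Haupt

set_option autoImplicit false

open AlgebraicCurve ModularCurve

noncomputable section

namespace Fermat.Agent.S18.H83

open Fermat.Agent.S24

variable (N : ℕ) [NeZero N]

/-- `j_N = j(q^N)` is unramified outside `{0, 1728}` (two-point form). -/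
theorem unram_jtop (P : Place Kbar (FF N)) (c : Kbar) (h0 : c ≠ 0) (h1 : c ≠ 1728)
    (hpos : 0 < P.ord (jtop N - algebraMap Kbar (FF N) c)) :
    P.ord (jtop N - algebraMap Kbar (FF N) c) = 1 :=
  ord_jtop_sub_eq_one N h0 h1 P hpos

/-- A base function `x` with `j_N * x = (x + 16) ^ 3` is unramified outside `{0, -64}`. -/
theorem unram_haupt2 {x : FF N} (hx : jtop N * x = (x + 16) ^ 3)
    (P : Place Kbar (FF N)) (c : Kbar) (h0 : c ≠ 0) (h1 : c ≠ -64)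
    (hpos : 0 < P.ord (x - algebraMap Kbar (FF N) c)) :
    P.ord (x - algebraMap Kbar (FF N) c) = 1 :=
  unram_haupt_two hx (fun P _ h0 h1 => ord_jtop_sub_eq_one N h0 h1 P)
    (ord_jtop_dvd_three N) (ord_jtop_sub_dvd_two N) P c h0 h1 hpos

/-- A base function `x` with `j_N * x = (x + 27) * (x + 3) ^ 3` is unramified outside
`{0, -27}`. -/
theorem unram_haupt3 {x : FF N} (hx : jtop N * x = (x + 27) * (x + 3) ^ 3)
    (P : Place Kbar (FF N)) (c : Kbar) (h0 : c ≠ 0) (h1 : c ≠ -27)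
    (hpos : 0 < P.ord (x - algebraMap Kbar (FF N) c)) :
    P.ord (x - algebraMap Kbar (FF N) c) = 1 :=
  unram_haupt_three hx (fun P _ h0 h1 => ord_jtop_sub_eq_one N h0 h1 P)
    (ord_jtop_dvd_three N) (ord_jtop_sub_dvd_two N) P c h0 h1 hpos

variable (A : ValuationSubring Kbar)

/-- `Setup.branch` for `x = j_N`, `ℓ ≥ 5`. -/
theorem branch_jtop (h : (1728 : Kbar)⁻¹ ∈ A) :
    ∃ S : Finset Kbar, (∀ c ∈ S, c ∈ A) ∧
      (∀ c ∈ S, ∀ c' ∈ S, c ≠ c' → (c - c')⁻¹ ∈ A) ∧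
      ∀ (P : Place Kbar (FF N)) (c : Kbar), c ∉ S →
        0 < P.ord (jtop N - algebraMap Kbar (FF N) c) →
          P.ord (jtop N - algebraMap Kbar (FF N) c) = 1 :=
  branch_shape_two A (jtop N) 1728 (ofNat_mem A 1728) h (unram_jtop N)

/-- `Setup.branch_inv` for `x = j_N`, `ℓ ≥ 5`. -/
theorem branch_inv_jtop (h : (1728 : Kbar)⁻¹ ∈ A) :
    ∃ S : Finset Kbar, (∀ c ∈ S, c ∈ A) ∧
      (∀ c ∈ S, ∀ c' ∈ S, c ≠ c' → (c - c')⁻¹ ∈ A) ∧
      ∀ (P : Place Kbar (FF N)) (c : Kbar), c ∉ S →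
        0 < P.ord ((jtop N)⁻¹ - algebraMap Kbar (FF N) c) →
          P.ord ((jtop N)⁻¹ - algebraMap Kbar (FF N) c) = 1 :=
  branch_inv_shape_two A (jtop N) 1728 (ofNat_mem A 1728) h (unram_jtop N)

/-- `Setup.branch` for a level-2 Hauptmodul base, `ℓ = 3`. -/
theorem branch_haupt2 (h : (64 : Kbar)⁻¹ ∈ A) {x : FF N} (hx : jtop N * x = (x + 16) ^ 3) :
    ∃ S : Finset Kbar, (∀ c ∈ S, c ∈ A) ∧
      (∀ c ∈ S, ∀ c' ∈ S, c ≠ c' → (c - c')⁻¹ ∈ A) ∧
      ∀ (P : Place Kbar (FF N)) (c : Kbar), c ∉ S →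
        0 < P.ord (x - algebraMap Kbar (FF N) c) →
          P.ord (x - algebraMap Kbar (FF N) c) = 1 :=
  branch_shape_two A x (-64) (neg_mem (ofNat_mem A 64)) (by rw [inv_neg]; exact neg_mem h)
    (unram_haupt2 N hx)

/-- `Setup.branch_inv` for a level-2 Hauptmodul base, `ℓ = 3`. -/
theorem branch_inv_haupt2 (h : (64 : Kbar)⁻¹ ∈ A) {x : FF N}
    (hx : jtop N * x = (x + 16) ^ 3) :
    ∃ S : Finset Kbar, (∀ c ∈ S, c ∈ A) ∧
      (∀ c ∈ S, ∀ c' ∈ S, c ≠ c' → (c - c')⁻¹ ∈ A) ∧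
      ∀ (P : Place Kbar (FF N)) (c : Kbar), c ∉ S →
        0 < P.ord (x⁻¹ - algebraMap Kbar (FF N) c) →
          P.ord (x⁻¹ - algebraMap Kbar (FF N) c) = 1 :=
  branch_inv_shape_two A x (-64) (neg_mem (ofNat_mem A 64)) (by rw [inv_neg]; exact neg_mem h)
    (unram_haupt2 N hx)

/-- `Setup.branch` for a level-3 Hauptmodul base, `ℓ = 2`. -/
theorem branch_haupt3 (h : (27 : Kbar)⁻¹ ∈ A) {x : FF N}
    (hx : jtop N * x = (x + 27) * (x + 3) ^ 3) :
    ∃ S : Finset Kbar, (∀ c ∈ S, c ∈ A) ∧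
      (∀ c ∈ S, ∀ c' ∈ S, c ≠ c' → (c - c')⁻¹ ∈ A) ∧
      ∀ (P : Place Kbar (FF N)) (c : Kbar), c ∉ S →
        0 < P.ord (x - algebraMap Kbar (FF N) c) →
          P.ord (x - algebraMap Kbar (FF N) c) = 1 :=
  branch_shape_two A x (-27) (neg_mem (ofNat_mem A 27)) (by rw [inv_neg]; exact neg_mem h)
    (unram_haupt3 N hx)

/-- `Setup.branch_inv` for a level-3 Hauptmodul base, `ℓ = 2`. -/
theorem branch_inv_haupt3 (h : (27 : Kbar)⁻¹ ∈ A) {x : FF N}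
    (hx : jtop N * x = (x + 27) * (x + 3) ^ 3) :
    ∃ S : Finset Kbar, (∀ c ∈ S, c ∈ A) ∧
      (∀ c ∈ S, ∀ c' ∈ S, c ≠ c' → (c - c')⁻¹ ∈ A) ∧
      ∀ (P : Place Kbar (FF N)) (c : Kbar), c ∉ S →
        0 < P.ord (x⁻¹ - algebraMap Kbar (FF N) c) →
          P.ord (x⁻¹ - algebraMap Kbar (FF N) c) = 1 :=
  branch_inv_shape_two A x (-27) (neg_mem (ofNat_mem A 27)) (by rw [inv_neg]; exact neg_mem h)
    (unram_haupt3 N hx)

/-- The underlying series of `jtop N` is `j(q^N)` with coefficients in `ℚ̄`. -/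
theorem jtop_coe :
    ((jtop N : FF N) : LaurentSeries Kbar) = coeffEmb Kbar (qExpand ℚ N jq) := rfl

end Fermat.Agent.S18.H83
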